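import Fermat.Agent.GD.Bases.DualityGlobal.Torsion

/-!
# Roots of numbers whose orders outside `T` are multiples of `p`
-/

set_option autoImplicit false
set_option linter.unusedSectionVars false
set_option linter.style.haveILetI false

noncomputable section

namespace Fermat.Agent.GD

open Fermat.Agent.Galois (GQ)
open scoped Pointwise

local notation "ℚb" => AlgebraicClosure ℚ

/-- A prime as a unit of `ℚ̄`. -/
def primeUnit (q : Nat.Primes) : ℚbˣ := natUnitOf (q : ℕ) q.2.ne_zero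
  where natUnitOf (a : ℕ) (ha : a ≠ 0) : ℚbˣ := Units.mk0 (a : ℚb) (Nat.cast_ne_zero.mpr ha)

theorem smul_primeUnit (g : GQ) (q : Nat.Primes) : g • primeUnit q = primeUnit q :=
  Units.ext (map_natCast g (q : ℕ))

theorem smul_primeUnit_zpow (g : GQ) (q : Nat.Primes) (k : ℤ) :
    g • primeUnit q ^ k = primeUnit q ^ k := by
  rw [smul_zpow', smul_primeUnit]

/-- The number has order `k` at the chosen place over `q`. -/
def HasOrd (q : Nat.Primes) (z : ℚbˣ) (k : ℤ) : Prop :=
  z / primeUnit q ^ k ∈ (placeAt q).unitGroup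

theorem HasOrd.val {q : Nat.Primes} {z : ℚbˣ} {k : ℤ} (h : HasOrd q z k) :
    (placeAt q).valuation (z : ℚb) = (placeAt q).valuation ((q : ℕ) : ℚb) ^ k := by
  have h1 : (placeAt q).valuation ((z / primeUnit q ^ k : ℚbˣ) : ℚb) = 1 := h
  rw [Units.val_div_eq_div_val, map_div₀, Units.val_zpow_eq_zpow_val, map_zpow₀] at h1
  exact (div_eq_one_iff_eq (zpow_ne_zero _ (natCast_val_ne_zero q.2))).mp h1

theorem hasOrd_of_val {q : Nat.Primes} {z : ℚbˣ} {k : ℤ}
    (h : (placeAt q).valuation (z : ℚb) = (placeAt q).valuation ((q : ℕ) : ℚb) ^ k) :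
    HasOrd q z k := by
  show (placeAt q).valuation ((z / primeUnit q ^ k : ℚbˣ) : ℚb) = 1
  rw [Units.val_div_eq_div_val, map_div₀, Units.val_zpow_eq_zpow_val, map_zpow₀, h]
  exact div_self (zpow_ne_zero _ (natCast_val_ne_zero q.2))

theorem HasOrd.unique {q : Nat.Primes} {z : ℚbˣ} {k l : ℤ} (h : HasOrd q z k) (h' : HasOrd q z l) :
    k = l :=
  (ordAt_eq q.2 (placeAt_liesOverPrime q) h.val).symm.trans
    (ordAt_eq q.2 (placeAt_liesOverPrime q) h'.val)

theorem hasOrd_zero {q : Nat.Primes} {z : ℚbˣ} :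
    HasOrd q z 0 ↔ z ∈ (placeAt q).unitGroup := by
  rw [HasOrd, zpow_zero, div_one]

theorem HasOrd.mul {q : Nat.Primes} {z z' : ℚbˣ} {k l : ℤ} (h : HasOrd q z k) (h' : HasOrd q z' l) :
    HasOrd q (z * z') (k + l) := by
  rw [HasOrd, zpow_add, ← div_mul_div_comm]
  exact mul_mem h h'

theorem HasOrd.inv {q : Nat.Primes} {z : ℚbˣ} {k : ℤ} (h : HasOrd q z k) :
    HasOrd q z⁻¹ (-k) := by
  rw [HasOrd, zpow_neg, div_inv_eq_mul, ← div_eq_inv_mul, ← inv_div]
  exact inv_mem h

theorem HasOrd.pow {q : Nat.Primes} {z : ℚbˣ} {k : ℤ} (h : HasOrd q z k) (n : ℕ) :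
    HasOrd q (z ^ n) (k * n) := by
  rw [HasOrd, zpow_mul, zpow_natCast, ← div_pow]
  exact pow_mem h n

theorem HasOrd.smul {q : Nat.Primes} {z : ℚbˣ} {k : ℤ} (h : HasOrd q z k) {d : GQ}
    (hd : d ∈ decomp (some q)) : HasOrd q (d • z) k := by
  have h1 := smul_mem_unitGroup ⟨d, hd⟩ h
  change d • (z / primeUnit q ^ k) ∈ _ at h1
  rwa [smul_div', smul_primeUnit_zpow] at h1

/-- A number fixed by a level has an order at every prime outside `T`. -/
theorem exists_hasOrd {T : Finset Nat.Primes} {N : Subgroup GQ} (hN : (LT T).IsLevel N)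
    {q : Nat.Primes} (hq : q ∉ T) {z : ℚbˣ} (hz : ∀ s ∈ N, s • z = z) : ∃ k, HasOrd q z k := by
  obtain ⟨k, hk⟩ := exists_val_eq_zpow_of_inertia (q := q)
    (H := N.subgroupOf (decomp (some q))) (unram_level hN hq) le_rfl (y := (z : ℚb))
    (mem_fieldOf.mpr fun s hs => congrArg Units.val (hz _ hs)) z.ne_zero
  exact ⟨k, hasOrd_of_val hk⟩

variable {p : ℕ} [hp : Fact p.Prime] {T : Finset Nat.Primes}

/-- A root of a number whose orders outside `T` are multiples of `p` is unramified outside `T`. -/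
theorem exists_level_root_dvd (hT : (⟨p, Fact.out⟩ : Nat.Primes) ∈ T) {N : Subgroup GQ}
    (hN : (LT T).IsLevel N) {x : ℚbˣ} (hx : ∀ s ∈ N, s • x = x)
    (hdvd : ∀ q ∉ T, ∀ g : GQ, ∃ k : ℤ, HasOrd q (g • x) (k * p)) {y : ℚbˣ} (hy : y ^ p = x) :
    ∃ N', (LT T).IsLevel N' ∧ ∀ s : GQ, s ∈ N' → s • y = y := by
  obtain ⟨F, hF, hFN, hn⟩ := hN
  let S : Set ℚb := (minpoly ℚ (y : ℚb)).rootSet ℚb
  have hint : IsIntegral ℚ (y : ℚb) := Algebra.IsIntegral.isIntegral _
  have hS : ∀ z ∈ S, ∃ g : GQ, g (y : ℚb) = z := by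
    intro z hz
    rw [Polynomial.mem_rootSet] at hz
    exact minpoly.exists_algEquiv_of_root' hint.isAlgebraic hz.2
  have hyS : ∀ g : GQ, g (y : ℚb) ∈ S := fun g => by
    rw [Polynomial.mem_rootSet]
    exact ⟨minpoly.ne_zero hint, by rw [Polynomial.aeval_algEquiv, AlgHom.comp_apply,
      minpoly.aeval, map_zero]⟩
  haveI : FiniteDimensional ℚ (IntermediateField.adjoin ℚ S) :=
    IntermediateField.finiteDimensional_adjoin (fun z _ => Algebra.IsIntegral.isIntegral z)
  refine ⟨(IntermediateField.adjoin ℚ S).fixingSubgroup, ⟨_, ⟨inferInstance, ?_⟩, rfl, ?_⟩, ?_⟩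
  · intro q hq A hA σ hσ
    refine mem_fixingSubgroup_adjoin fun z hz => ?_
    obtain ⟨g, rfl⟩ := hS z hz
    obtain ⟨τ, hτ⟩ := Galois.exists_smul_eq_of_liesOverPrime q.2 (placeAt_liesOverPrime q) hA
    obtain ⟨k, hk⟩ := hdvd q hq (τ⁻¹ * g)
    -- rescale by a power of the prime
    set c : ℚbˣ := primeUnit q ^ k with hc
    have hcfix : ∀ a : GQ, a • c = c := fun a => smul_primeUnit_zpow a q k
    set w : ℚbˣ := g • y / c with hw
    have hwp : w ^ p = g • x / primeUnit q ^ (k * p) := by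
      rw [hw, div_pow, ← smul_pow', hy, hc, ← zpow_natCast, ← zpow_mul]
    have hU : (τ⁻¹ : GQ) • (w ^ p) ∈ (placeAt q).unitGroup := by
      rw [hwp, smul_div', smul_primeUnit_zpow, ← mul_smul]
      exact hk
    have e : ∀ v : ℚb, v ∈ A ↔ τ⁻¹ v ∈ placeAt q := fun v => by
      rw [hτ]
      exact ValuationSubring.mem_pointwise_smul_iff_inv_smul_mem
    rw [ValuationSubring.mem_unitGroup_iff] at hU
    have h1 : (w : ℚb) ^ p ∈ A := by
      rw [← Units.val_pow_eq_pow_val]
      refine (e _).mpr ?_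
      rw [← ValuationSubring.valuation_le_one_iff]
      exact le_of_eq hU
    have h2 : ((w : ℚb) ^ p)⁻¹ ∈ A := by
      rw [← Units.val_pow_eq_pow_val]
      refine (e _).mpr ?_
      rw [map_inv₀, ← ValuationSubring.valuation_le_one_iff, map_inv₀]
      exact le_of_eq (by rw [inv_eq_one]; exact hU)
    have hσN : σ ∈ N := (SetLike.ext_iff.mp hFN σ).mpr (hF.2 q hq A hA hσ)
    have h3 : (g⁻¹ * σ * g : GQ) ∈ N := by simpa using! hn.conj_mem σ hσN g⁻¹
    have h4 : σ • (g • x) = g • x := by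
      calc σ • (g • x) = g • ((g⁻¹ * σ * g : GQ) • x) := by
            rw [← mul_smul, ← mul_smul]; congr 1; group
        _ = g • x := congrArg (g • ·) (hx _ h3)
    have h5 : σ • (w ^ p) = w ^ p := by rw [hwp, smul_div', smul_primeUnit_zpow, h4]
    have h6 : σ • w = w := Units.ext (inertia_fixes_root hT hq hA hσ w.ne_zero h1 h2
      (by rw [← Units.val_pow_eq_pow_val]; exact congrArg Units.val h5))
    have h7 : σ • (g • y) = g • y := by
      have e1 : g • y = w * c := by rw [hw, div_mul_cancel]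
      rw [e1, smul_mul', h6, hcfix]
    exact congrArg Units.val h7
  · constructor
    intro s hs g
    refine mem_fixingSubgroup_adjoin fun z hz => ?_
    obtain ⟨h, rfl⟩ := hS z hz
    have hfix : s ((g⁻¹ * h : GQ) (y : ℚb)) = (g⁻¹ * h : GQ) (y : ℚb) :=
      (IntermediateField.mem_fixingSubgroup_iff _ _).mp hs _
        (IntermediateField.subset_adjoin ℚ S (hyS _))
    show g (s (g⁻¹ (h (y : ℚb)))) = h (y : ℚb)
    rw [show g⁻¹ (h (y : ℚb)) = (g⁻¹ * h : GQ) (y : ℚb) from rfl, hfix,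
      AlgEquiv.mul_apply]
    exact g.apply_symm_apply _
  · intro s hs
    refine Units.ext ?_
    exact (IntermediateField.mem_fixingSubgroup_iff _ _).mp hs _
      (IntermediateField.subset_adjoin ℚ S (hyS 1))

/-- A coboundary of `p`-th powers is the coboundary of a number with a root in `ℚ_T`. -/
theorem exists_root_coboundary (hT : (⟨p, Fact.out⟩ : Nat.Primes) ∈ T) {H N₀ : Subgroup GQ}
    (hN₀ : (LT T).IsLevel N₀) (hle₀ : N₀ ≤ H) (hbig : IsBig T N₀) {N : Subgroup GQ}
    (hN : (LT T).IsLevel N) (hle : N ≤ H) {x : H → ℚbˣ} {y : ℚbˣ}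
    (hxfix : ∀ h, ∀ s ∈ N, s • x h = x h) (hyfix : ∀ s ∈ N, s • y = y)
    (hxy : ∀ h : H, x h ^ p = (h : GQ) • y / y) :
    ∃ z : ℚbˣ, (∃ N', (LT T).IsLevel N' ∧ ∀ s : GQ, s ∈ N' → s • z = z) ∧
      ∀ h : H, x h ^ p = ((h : GQ) • z / z) ^ p := by
  classical
  haveI hNn : N.Normal := normal_of_level hN
  have hconj : ∀ (u : ℚbˣ), (∀ s ∈ N, s • u = u) → ∀ g : GQ, ∀ s ∈ N, s • (g • u) = g • u :=
    fun u hu g s hs => by
      rw [← mul_smul, show s * g = g * (g⁻¹ * s * g) by group, mul_smul,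
        hu _ (by simpa using! hNn.conj_mem s hs g⁻¹)]
  have hord : ∀ (q : Nat.Primes) (g : GQ), ∃ k, q ∉ T → HasOrd q (g • y) k := fun q g => by
    by_cases hq : q ∈ T
    · exact ⟨0, fun h => absurd hq h⟩
    · obtain ⟨k, hk⟩ := exists_hasOrd hN hq (hconj y hyfix g)
      exact ⟨k, fun _ => hk⟩
  choose k hk using hord
  have hkH : ∀ q, q ∉ T → ∀ (g : GQ) (h : H), k q (g * h) % (p : ℤ) = k q g % (p : ℤ) := fun q hq g h => by
    obtain ⟨l, hl⟩ := exists_hasOrd hN hq (hconj (x h) (hxfix h) g)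
    have h2 : HasOrd q (g • ((h : GQ) • y)) (l * p + k q g) := by
      rw [show (h : GQ) • y = x h ^ p * y by rw [hxy, div_mul_cancel], smul_mul', smul_pow']
      exact (hl.pow p).mul (hk q g hq)
    rw [(hk q (g * h) hq).unique (by rw [mul_smul]; exact h2), add_comm, mul_comm,
      Int.add_mul_emod_self_left]
  let E : Place → GQ → ℚbˣ := fun v g =>
    match v with
    | none => 1
    | some q => if q ∈ T then 1 else primeUnit q ^ (k q g % (p : ℤ))
  have hEd : ∀ (q : Nat.Primes) (d g : GQ), q ∉ T → d ∈ decomp (some q) → k q (d * g) = k q g :=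
    fun q d g hq hd => (hk q (d * g) hq).unique (by rw [mul_smul]; exact (hk q g hq).smul hd)
  have hEs : ∀ (v : Place) (g s : GQ), s ∈ H → E v (g * s) = E v g := fun v g s hs => by
    rcases v with _ | q
    · rfl
    · show (if q ∈ T then 1 else _) = if q ∈ T then 1 else _
      split_ifs with hq
      · rfl
      · rw [show k q (g * s) % (p : ℤ) = k q g % (p : ℤ) from hkH q hq g ⟨s, hs⟩]
  have hEmem : E ∈ idele T := by
    refine ⟨fun v d hd g => ?_, ⟨N₀, hN₀, fun v g s hs => hEs v g s (hle₀ hs)⟩,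
      (diag_finite y).subset fun q hq => ?_⟩
    · rcases v with _ | q
      · exact (smul_one d).symm
      · show (if q ∈ T then 1 else _) = d • if q ∈ T then 1 else _
        split_ifs with hq
        · exact (smul_one d).symm
        · rw [smul_primeUnit_zpow, hEd q d g hq hd]
    · obtain ⟨g, hg⟩ := hq
      refine ⟨g, fun hu => hg ?_⟩
      show (if q ∈ T then 1 else _) ∈ _
      split_ifs with hqT
      · exact one_mem _
      · rw [show k q g = 0 from (hk q g hqT).unique (hasOrd_zero.mpr hu), Int.zero_emod, zpow_zero]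
        exact one_mem _
  obtain ⟨x₀, hx₀, hx₀u⟩ := hbig H hle₀ ⟨E, hEmem⟩
    fun h hh => funext fun v => funext fun g => hEs v g h hh
  obtain ⟨z, hz⟩ := IsAlgClosed.exists_pow_nat_eq (((y / x₀ : ℚbˣ)) : ℚb) hp.out.pos
  let z' : ℚbˣ := Units.mk0 z fun h => (y / x₀ : ℚbˣ).ne_zero
    (by rw [← hz, h, zero_pow hp.out.ne_zero])
  have hz' : z' ^ p = y / x₀ := Units.ext (by rw [Units.val_pow_eq_pow_val]; exact hz)
  refine ⟨z', exists_level_root_dvd hT hN (x := y / x₀)
    (fun s hs => by rw [smul_div', hyfix s hs, hx₀ s (hle hs)]) (fun q hq g => ?_) hz',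
    fun h => ?_⟩
  · refine ⟨k q g / (p : ℤ), ?_⟩
    have hx₀ord : HasOrd q (g • x₀) (k q g % (p : ℤ)) := by
      have h1 := inv_mem (hx₀u q hq g)
      rw [show (⟨E, hEmem⟩ : idele T).1 (some q) g = primeUnit q ^ (k q g % (p : ℤ)) from if_neg hq,
        inv_div] at h1
      exact h1
    have h2 := (hk q g hq).mul hx₀ord.inv
    rw [← div_eq_mul_inv, ← smul_div'] at h2
    rwa [show k q g + -(k q g % (p : ℤ)) = k q g / (p : ℤ) * p by
      have := Int.mul_ediv_add_emod (k q g) (p : ℤ)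
      rw [mul_comm (p : ℤ)] at this
      linarith] at h2
  · rw [div_pow, ← smul_pow', hz', smul_div', hx₀ _ h.2, div_div_div_cancel_right, hxy]

end Fermat.Agent.GD
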