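import Fermat.Agent.GD.Bases.Descent
import Fermat.Agent.GD.Global.First
import Fermat.Agent.GD.Global.ClassFormation

/-!
# Not every fixed class is a norm from a cyclic extension of degree `p`
-/

set_option autoImplicit false
set_option linter.unusedSectionVars false

noncomputable section

namespace Fermat.Agent.GD

variable {p : ℕ} [hp : Fact p.Prime] {T : Finset Nat.Primes}

/-- A cyclic extension of degree `p` has a fixed class which is no norm. -/
theorem exists_not_norm_class (hp2 : p ≠ 2) {H : Subgroup (LT T).G} (hμ : FixesMu p H)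
    (H' : Subgroup (LT T).G)
    (χ : (LT T).G → ZMod p) (hc : IsCyc H H' p χ) :
    ∃ a ∈ fixPts (ClassT T) H, ∀ y ∈ fixPts (ClassT T) H', nm H H' y ≠ a := by
  by_contra hall
  push Not at hall
  refine (first_inequality p T hp2 H H' hc.isOpen hc.le hc.normal hc.relIndex_eq hμ).1
    (eq_top_iff.mpr fun c _ => AddSubgroup.subset_closure ?_)
  obtain ⟨y, hy, hyc⟩ := hall c.1 c.2
  exact ⟨y, hy, hyc.symm⟩

end Fermat.Agent.GD
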