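import Fermat.Agent.GD.Bases.Euler.ClassesModP
import Fermat.Agent.GD.Bases.Descent

/-!
# The classes killed by `p` fixed by an open subgroup are finitely many
-/

set_option autoImplicit false
set_option linter.unusedSectionVars false
set_option linter.style.haveILetI false

noncomputable section

namespace Fermat.Agent.GD

open Fermat.Agent.Galois (GQ)

local notation "ℚb" => AlgebraicClosure ℚ

variable {p : ℕ} [hp : Fact p.Prime] {T : Finset Nat.Primes}

theorem finite_mu_torsion_units : {a : Additive ℚbˣ | p • a = 0}.Finite :=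
  (Set.finite_range (toMu p)).subset fun _ h => exists_toMu p h

theorem finite_sUnits_quot (hp2 : p ≠ 2) {H : Subgroup (LT T).G} (hH : (LT T).IsOpen H)
    (hμ : FixesMu p H) : Finite (sUnits T H ⧸ powers p (sUnits T H)) :=
  Nat.finite_of_card_ne_zero (by
    rw [card_sUnits_mod p T hp2 H hH hμ]
    exact pow_ne_zero _ hp.out.ne_zero)

/-- Finitely many fixed classes are killed by `p`. -/
theorem finite_classes_torsion (hp2 : p ≠ 2) {H N : Subgroup (LT T).G} (hN : (LT T).IsLevel N)
    (hle : N ≤ H) (hμ : FixesMu p H) (hbig : IsBig T N) :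
    {c : ClassT T | p • c = 0 ∧ ∀ h ∈ H, h • c = c}.Finite := by
  classical
  let H₀ : Subgroup GQ := H
  let N₀ : Subgroup GQ := N
  haveI : H₀.FiniteIndex := finiteIndex_of_level_le (N := N₀) hN hle
  let S : Set (ClassT T) := {c | p • c = 0 ∧ ∀ h ∈ H, h • c = c}
  have hlift : ∀ c : S, ∃ f : Additive (idele T), f ∈ unitIdeles T H₀ ∧ classHom T f = c.1 := fun c => by
    obtain ⟨f, hf, hfc, hfu⟩ := exists_unit_lift hN hbig H hle c.1 c.2.2
    exact ⟨f, ⟨fun h hh => hf h hh, hfu⟩, hfc⟩
  choose f hf hfc using hlift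
  -- the principal part of the `p`-th multiple
  have hx : ∀ c : S, ∃ x : sUnits T H₀, ∀ v ∈ placesOf T, ∀ g : GQ,
      p • evalAt v g (f c) = g • Additive.ofMul (x : ℚbˣ) := fun c => by
    obtain ⟨h1, -, h3⟩ := components_of_class_zero (f := p • f c)
      (by rw [map_nsmul, hfc]; exact c.2.1)
    have hu : IsTUnit T (evalAt none 1 (p • f c)) := h3 fun q hq g => by
      rw [toMul_nsmul]
      exact pow_mem ((hf c).2 q hq g) p
    refine ⟨⟨(evalAt none 1 (p • f c)).toMul, fun h hh => congrArg Additive.toMul ?_, hu⟩,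
      fun v hv g => by rw [← map_nsmul]; exact h1 v hv g⟩
    show h • evalAt none 1 (p • f c) = _
    rw [← h1 none mem_placesOf_none h]
    conv_rhs => rw [← (AddSubgroup.nsmul_mem _ (hf c) p).1 h hh, evalAt_lt, one_mul]
  choose x hx using hx
  haveI : Finite (sUnits T H₀ ⧸ powers p (sUnits T H₀)) :=
    finite_sUnits_quot hp2 ⟨N, hN, hle⟩ hμ
  -- classes whose lift has torsion components
  let K : Set (ClassT T) := {c | ∃ f ∈ unitIdeles T H₀, classHom T f = c ∧
    ∀ v ∈ placesOf T, ∀ g : GQ, p • evalAt v g f = 0}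
  have hK : K.Finite := by
    haveI : Finite (GQ ⧸ H₀) := Subgroup.finite_quotient_of_finiteIndex
    haveI : Finite {a : Additive ℚbˣ | p • a = 0} := finite_mu_torsion_units.to_subtype
    choose F hF hFc hFt using fun c : K => c.2
    let e : K → (placesOf T → GQ ⧸ H₀ → {a : Additive ℚbˣ | p • a = 0}) := fun c v s =>
      ⟨evalAt v.1 s.out (F c), hFt c v.1 v.2 _⟩
    have he : Function.Injective e := fun c c' h => by
      refine Subtype.ext ?_
      rw [← hFc c, ← hFc c', ← sub_eq_zero, ← map_sub]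
      refine classHom_eq_zero_of 0 hN (fun s _ => smul_zero s) (fun v hv g => ?_)
        (AddSubgroup.sub_mem _ (hF c) (hF c')).2
        (fun q _ g => by rw [toMul_zero, smul_one]; exact one_mem _)
      obtain ⟨k, hk⟩ := QuotientGroup.mk_out_eq_mul H₀ g
      have h1 := congrArg Subtype.val (congrFun (congrFun h ⟨v, hv⟩) (g : GQ ⧸ H₀))
      have h2 : ∀ φ ∈ unitIdeles T H₀, evalAt v (g : GQ ⧸ H₀).out φ = evalAt v g φ := fun φ hφ => by
        conv_rhs => rw [← hφ.1 (k : GQ) k.2, evalAt_lt, ← hk]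
      rw [smul_zero, map_sub, ← h2 _ (hF c), ← h2 _ (hF c'), sub_eq_zero]
      exact h1
    exact Set.finite_coe_iff.mp (Finite.of_injective e he)
  haveI := hK.to_subtype
  let Q : S → sUnits T H₀ ⧸ powers p (sUnits T H₀) := fun c => QuotientGroup.mk (x c)
  have hdiff : ∀ c c' : S, Q c = Q c' → c.1 - c'.1 ∈ K := fun c c' h => by
    obtain ⟨y, hy⟩ := QuotientGroup.eq.mp h
    let d : unitIdeles T H₀ := sUnitIdele (N := N₀) hN hle (Additive.ofMul y)
    refine ⟨f c - f c' + d.1, add_mem (AddSubgroup.sub_mem _ (hf c) (hf c')) d.2, ?_,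
      fun v hv g => ?_⟩
    · rw [map_add, map_sub, hfc, hfc, classHom_sUnitIdele, add_zero]
    · have hy' : p • Additive.ofMul (y : ℚbˣ) =
          -Additive.ofMul (x c : ℚbˣ) + Additive.ofMul (x c' : ℚbˣ) :=
        congrArg Additive.ofMul (congrArg Subtype.val hy)
      rw [map_add, map_sub, nsmul_add, nsmul_sub, hx c v hv g, hx c' v hv g,
        show evalAt v g d.1 = g • Additive.ofMul (y : ℚbˣ) from rfl, smul_comm p g, hy', smul_add,
        smul_neg]
      abel
  haveI : Nonempty S := ⟨⟨0, smul_zero _, fun h _ => smul_zero h⟩⟩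
  refine Set.finite_coe_iff.mp (Finite.of_injective (fun c : S =>
    ((Q c, ⟨c.1 - (Function.invFun Q (Q c) : S).1, hdiff c _ (Function.invFun_eq ⟨c, rfl⟩).symm⟩) :
      (sUnits T H₀ ⧸ powers p (sUnits T H₀)) × K)) fun c c' h => ?_)
  have h1 : Q c = Q c' := congrArg Prod.fst h
  have h2 := congrArg Subtype.val (congrArg Prod.snd h)
  simp only [h1, sub_left_inj] at h2
  exact Subtype.ext h2

end Fermat.Agent.GD
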