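import Fermat.Agent.GD.Bases.DualityGlobal.Orbit
import Fermat.Agent.GD.Bases.DualityGlobal.Torsion

/-!
# Classes orthogonal to the supported roots of unity are locally trivial
-/

set_option autoImplicit false
set_option linter.unusedSectionVars false
set_option linter.style.haveILetI false

noncomputable section

namespace Fermat.Agent.GD

open Fermat.Agent.Galois (GQ)

local notation "ℚb" => AlgebraicClosure ℚ

variable {p : ℕ} [hp : Fact p.Prime] {T : Finset Nat.Primes}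

/-- An element of a local group as an element of the field group. -/
abbrev cjT (H : Subgroup GQ) {v : Place} {g : GQ} (d : locSub (decomp v) H g) : H :=
  cj (D := decomp v) (H := H) d

variable (T) in
/-- The component of an idele cochain at one place of the field. -/
def locAt (H : Subgroup GQ) (v : Place) (g : GQ) :
    (H × H → Additive (idele T)) →+
      (locSub (decomp v) H g × locSub (decomp v) H g → Additive ℚbˣ) where
  toFun z y := evalAt v g (z (cjT H y.1, cjT H y.2))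
  map_zero' := funext fun _ => map_zero _
  map_add' _ _ := funext fun _ => map_add _ _ _

theorem evalAt_cjT_smul {H : Subgroup GQ} {v : Place} {g : GQ} (d : locSub (decomp v) H g)
    (f : Additive (idele T)) :
    evalAt v g (lt T (cjT H d : GQ) • f) = (d : decomp v) • evalAt v g f := by
  refine (evalAt_smul v g _ f).trans ?_
  rw [show g * (show GQ from lt T (cjT H d : GQ)) = ((d : decomp v) : GQ) * g from mul_cj d]
  exact evalAt_decomp v (d : decomp v).2 g f

theorem cjT_mem {H : Subgroup GQ} {v : Place} {g : GQ} {N : Subgroup GQ}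
    (hN : (LT T).IsLevel N) {d : locSub (decomp v) H g}
    (hd : ((d : decomp v) : GQ) ∈ N) : (cjT H d : GQ) ∈ N := by
  haveI : N.Normal := normal_of_level hN
  rw [show (cjT H d : GQ) = g⁻¹ * ((d : decomp v) : GQ) * g from coe_cj d]
  simpa using! (inferInstance : N.Normal).conj_mem _ hd g⁻¹

theorem locAt_mem_Z2 {H : Subgroup GQ} {v : Place} {g : GQ}
    {z : H × H → Additive (idele T)} (hz : z ∈ ((LT T).sub H).Z2 (Additive (idele T))) :
    locAt T H v g z ∈ ((LD v).sub (locSub (decomp v) H g)).Z2 (Additive ℚbˣ) := by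
  obtain ⟨⟨_, ⟨N, hN, rfl⟩, hzN⟩, hc⟩ := hz
  refine ⟨⟨_, ⟨_, exists_level_decomp hN v, rfl⟩, fun a a' s hs s' hs' => ?_⟩, fun a a' j => ?_⟩
  · show evalAt v g (z (cjT H (a * s), cjT H (a' * s'))) = evalAt v g (z (cjT H a, cjT H a'))
    rw [show cjT H (a * s) = cjT H a * cjT H s from cj_mul a s,
      show cjT H (a' * s') = cjT H a' * cjT H s' from cj_mul a' s']
    exact congrArg (evalAt v g) (hzN _ _ _ (cjT_mem hN hs) _ (cjT_mem hN hs'))
  · have h1 := congrArg (evalAt v g) (hc (cjT H a) (cjT H a') (cjT H j))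
    rw [map_add, map_add] at h1
    show (a : locSub (decomp v) H g) • evalAt v g (z (cjT H a', cjT H j)) +
      evalAt v g (z (cjT H a, cjT H (a' * j))) = evalAt v g (z (cjT H (a * a'), cjT H j)) +
        evalAt v g (z (cjT H a, cjT H a'))
    rw [show cjT H (a' * j) = cjT H a' * cjT H j from cj_mul a' j,
      show cjT H (a * a') = cjT H a * cjT H a' from cj_mul a a']
    refine Eq.trans (congrArg (· + _) ?_) h1
    exact (evalAt_cjT_smul a _).symm

/-- Local triviality moves along a double coset. -/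
theorem locAt_isB2_transport {H : Subgroup GQ} {v : Place} {g : GQ}
    {z : H × H → Additive (idele T)} (hz : z ∈ ((LT T).sub H).Z2 (Additive (idele T)))
    (h : ((LD v).sub (locSub (decomp v) H g)).IsB2 (Additive ℚbˣ) (locAt T H v g z))
    (d₀ : decomp v) (k₀ : H) (g' : GQ) (hg' : g' = (d₀ : GQ) * g * (k₀ : GQ)) :
    ((LD v).sub (locSub (decomp v) H g')).IsB2 (Additive ℚbˣ) (locAt T H v g' z) := by
  subst hg'
  obtain ⟨b, ⟨_, ⟨M, hM, rfl⟩, hbM⟩, hbd⟩ := h
  obtain ⟨β, ⟨_, ⟨N, hN, rfl⟩, hβN⟩, hβd⟩ := isB2_conj (L := (LT T).sub H) hz k₀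
  have hcoe : ∀ e : locSub (decomp v) H ((d₀ : GQ) * g * (k₀ : GQ)),
      g⁻¹ * ((d₀⁻¹ * (e : decomp v) * d₀ : decomp v) : GQ) * g⁻¹⁻¹ =
        (k₀ : GQ) * (cjT H e : GQ) * (k₀ : GQ)⁻¹ := fun e => by
    rw [show (cjT H e : GQ) = ((d₀ : GQ) * g * (k₀ : GQ))⁻¹ * ((e : decomp v) : GQ) * ((d₀ : GQ) * g * (k₀ : GQ)) from coe_cj e,
      Subgroup.coe_mul, Subgroup.coe_mul, Subgroup.coe_inv]
    group
  have hmem : ∀ e : locSub (decomp v) H ((d₀ : GQ) * g * (k₀ : GQ)), d₀⁻¹ * (e : decomp v) * d₀ ∈ locSub (decomp v) H g :=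
    fun e => by
      show g⁻¹ * ((d₀⁻¹ * (e : decomp v) * d₀ : decomp v) : GQ) * g⁻¹⁻¹ ∈ H
      rw [hcoe]
      exact H.mul_mem (H.mul_mem k₀.2 (cjT H e).2) (H.inv_mem k₀.2)
  let π : locSub (decomp v) H ((d₀ : GQ) * g * (k₀ : GQ)) → locSub (decomp v) H g := fun e => ⟨_, hmem e⟩
  have hπ : ∀ e, cjT H (π e) = k₀ * cjT H e * k₀⁻¹ := fun e => Subtype.ext (hcoe e)
  have hπmul : ∀ e e', π (e * e') = π e * π e' := fun e e' => Subtype.ext (by
    show d₀⁻¹ * ((e : decomp v) * (e' : decomp v)) * d₀ =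
      d₀⁻¹ * (e : decomp v) * d₀ * (d₀⁻¹ * (e' : decomp v) * d₀)
    group)
  let b' : locSub (decomp v) H ((d₀ : GQ) * g * (k₀ : GQ)) → Additive ℚbˣ := fun e =>
    d₀ • (b (π e) + evalAt v g (β (cjT H (π e))))
  obtain ⟨N₁, hN₁, hN₁d⟩ : ∃ N₁, (LD v).IsLevel N₁ ∧ ∀ s : decomp v, s ∈ N₁ →
      s ∈ M ∧ (s : GQ) ∈ (show Subgroup GQ from N) :=
    ⟨_, (LD v).inf _ _ hM (exists_level_decomp hN v), fun s hs => ⟨hs.1, hs.2⟩⟩
  have hconst : ∀ e s : locSub (decomp v) H ((d₀ : GQ) * g * (k₀ : GQ)), (s : decomp v) ∈ N₁ →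
      b' (e * s) = b' e := fun e s hs => by
    have hs' : d₀⁻¹ * (s : decomp v) * d₀ ∈ N₁ := by
      simpa using! ((LD v).normal N₁ hN₁).conj_mem _ hs d₀⁻¹
    have e2 : b (π e * π s) = b (π e) := hbM (π e) (π s) (hN₁d _ hs').1
    have e3 : β (cjT H (π e) * cjT H (π s)) = β (cjT H (π e)) :=
      hβN (cjT H (π e)) (cjT H (π s)) (cjT_mem hN (hN₁d _ hs').2)
    show d₀ • (b (π (e * s)) + evalAt v g (β (cjT H (π (e * s))))) =
      d₀ • (b (π e) + evalAt v g (β (cjT H (π e))))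
    rw [hπmul e s, show cjT H (π e * π s) = cjT H (π e) * cjT H (π s) from cj_mul _ _, e2, e3]
  have hd : ∀ e e' : locSub (decomp v) H ((d₀ : GQ) * g * (k₀ : GQ)),
      (e : decomp v) • b' e' - b' (e * e') + b' e =
        evalAt v ((d₀ : GQ) * g * (k₀ : GQ)) (z (cjT H e, cjT H e')) := fun e e' => by
    have h1 : (π e : decomp v) • b (π e') - b (π e * π e') + b (π e) =
        evalAt v g (z (cjT H (π e), cjT H (π e'))) := congrFun hbd (π e, π e')
    have h2 : evalAt v g (lt T (cjT H (π e) : GQ) • β (cjT H (π e')) -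
        β (cjT H (π e) * cjT H (π e')) + β (cjT H (π e))) =
        evalAt v g (lt T (k₀ : GQ) • z (k₀⁻¹ * cjT H (π e) * k₀, k₀⁻¹ * cjT H (π e') * k₀) -
          z (cjT H (π e), cjT H (π e'))) :=
      congrArg (evalAt v g) (congrFun hβd (cjT H (π e), cjT H (π e')))
    rw [map_add, map_sub, map_sub, evalAt_cjT_smul] at h2
    have e1 : evalAt v g (lt T (k₀ : GQ) • z (k₀⁻¹ * cjT H (π e) * k₀,
        k₀⁻¹ * cjT H (π e') * k₀)) = evalAt v (g * (k₀ : GQ)) (z (cjT H e, cjT H e')) := by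
      rw [hπ e, hπ e', show k₀⁻¹ * (k₀ * cjT H e * k₀⁻¹) * k₀ = cjT H e by group,
        show k₀⁻¹ * (k₀ * cjT H e' * k₀⁻¹) * k₀ = cjT H e' by group]
      exact evalAt_lt v g k₀ _
    rw [e1] at h2
    show (e : decomp v) • (d₀ • (b (π e') + evalAt v g (β (cjT H (π e'))))) -
      d₀ • (b (π (e * e')) + evalAt v g (β (cjT H (π (e * e'))))) +
        d₀ • (b (π e) + evalAt v g (β (cjT H (π e)))) = _
    rw [← mul_smul, show (e : decomp v) * d₀ = d₀ * (π e : decomp v) by
        show _ = d₀ * (d₀⁻¹ * (e : decomp v) * d₀); group,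
      mul_smul, ← smul_sub, ← smul_add]
    refine Eq.trans ?_ ((congrArg (fun x => evalAt v x (z (cjT H e, cjT H e')))
      (mul_assoc (d₀ : GQ) g (k₀ : GQ))).trans (evalAt_decomp v d₀.2 _ _)).symm
    refine congrArg (d₀ • ·) ?_
    rw [hπmul e e', show cjT H (π e * π e') = cjT H (π e) * cjT H (π e') from cj_mul _ _, smul_add]
    linear_combination (norm := abel) h1 + h2
  exact ⟨b', ⟨_, ⟨N₁, hN₁, rfl⟩, fun e s hs => hconst e s hs⟩,
    funext fun y => hd y.1 y.2⟩

end Fermat.Agent.GD
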