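import Fermat.Agent.GD.Bases.DualityGlobal.Detect

/-!
# Orthogonal classes give trivial cocycles of ideles
-/

set_option autoImplicit false
set_option linter.unusedSectionVars false
set_option linter.style.haveILetI false

noncomputable section

namespace Fermat.Agent.GD

open Fermat.Agent.Galois (GQ)

local notation "ℚb" => AlgebraicClosure ℚ

universe u w w'

/-- An equivariant map of modules on cocycles. -/
theorem map_mem_Z2 {L : LevelGroup.{u}} {A : Type w} [AddCommGroup A] [DistribMulAction L.G A]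
    {B : Type w'} [AddCommGroup B] [DistribMulAction L.G B] (f : A →+ B)
    (hf : ∀ (g : L.G) a, f (g • a) = g • f a) {z : L.G × L.G → A} (hz : z ∈ L.Z2 A) :
    (fun y => f (z y)) ∈ L.Z2 B := by
  obtain ⟨⟨N, hN, h1⟩, h2⟩ := hz
  refine ⟨⟨N, hN, fun g g' s hs s' hs' => congrArg f (h1 g g' s hs s' hs')⟩, fun g g' j => ?_⟩
  show g • f _ + f _ = f _ + f _
  rw [← hf, ← map_add, ← map_add, h2 g g' j]

variable {p : ℕ} [hp : Fact p.Prime] {T : Finset Nat.Primes}

theorem sub_nsmul_eq {A : Type*} [AddCommGroup A] (m : ℕ) (a b z : A) :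
    a - m • b = a - m • z - m • (b - z) := by
  rw [nsmul_sub]; abel

theorem nsmul_zmod (a : ZMod p) : p • a = 0 := by
  rw [nsmul_eq_mul, ZMod.natCast_self, zero_mul]

/-- The roots of unity as units away from `T` fixed by `H`. -/
def muUnitHom {H : Subgroup GQ} (hμ : ∀ h ∈ H, ∀ μ : ℚbˣ, μ ^ p = 1 → h • μ = μ) :
    ZMod p →+ Additive (sUnits T H) where
  toFun a := Additive.ofMul ⟨(toMu p a).toMul,
    fun h hh => hμ h hh _ (congrArg Additive.toMul
      (show p • toMu p a = 0 by rw [← map_nsmul, nsmul_zmod, map_zero])),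
    fun q hq g => isTUnit_of_pow (p := p) (x := toMu p a) (T := T) (fun q _ g => by
      rw [← map_nsmul, nsmul_zmod, map_zero, toMul_zero, smul_one]
      exact one_mem _) q hq g⟩
  map_zero' := congrArg Additive.ofMul (Subtype.ext (congrArg Additive.toMul (map_zero (toMu p))))
  map_add' a b := congrArg Additive.ofMul (Subtype.ext (congrArg Additive.toMul (map_add (toMu p) a b)))

/-- The roots of unity as ideles. -/
def muIdele {H N : Subgroup GQ} (hN : (LT T).IsLevel N) (hle : N ≤ H)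
    (hμ : ∀ h ∈ H, ∀ μ : ℚbˣ, μ ^ p = 1 → h • μ = μ) : ZMod p →+ Additive (idele T) :=
  (unitIdeles T H).subtype.comp ((sUnitIdele hN hle).comp (muUnitHom hμ))

variable {H N : Subgroup GQ} (hN : (LT T).IsLevel N) (hle : N ≤ H)
  (hμ : ∀ h ∈ H, ∀ μ : ℚbˣ, μ ^ p = 1 → h • μ = μ)
  [DistribMulAction ((LT T).sub H).G (ZMod p)]
  (htriv : ∀ (g : ((LT T).sub H).G) (m : ZMod p), g • m = m)

theorem evalAt_muIdele (v : Place) (g : GQ) (a : ZMod p) :
    evalAt v g (muIdele hN hle hμ a) = g • toMu p a := rfl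

theorem nsmul_muIdele (a : ZMod p) : p • muIdele hN hle hμ a = 0 := by
  rw [← map_nsmul, nsmul_zmod, map_zero]

include htriv

theorem muCochain_mem {c : H × H → ZMod p} (hc : c ∈ ((LT T).sub H).Z2 (ZMod p)) :
    (fun y => muIdele hN hle hμ (c y)) ∈ ((LT T).sub H).Z2 (Additive (idele T)) :=
  map_mem_Z2 (L := (LT T).sub H) (muIdele hN hle hμ) (fun g a => by
    rw [htriv]
    exact ((((sUnitIdele hN hle).comp (muUnitHom hμ)) a).2.1 g.1 g.2).symm) hc

theorem nsmul_locAt_mu {c : H × H → ZMod p} (v : Place) (g : GQ) :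
    p • locAt T H v g (fun y => muIdele hN hle hμ (c y)) = 0 := by
  rw [← map_nsmul, show (p • fun y => muIdele hN hle hμ (c y)) = 0 from
    funext fun y => nsmul_muIdele hN hle hμ (c y), map_zero]

theorem locAt_mu_none (hp2 : p ≠ 2) {c : H × H → ZMod p} (hc : c ∈ ((LT T).sub H).Z2 (ZMod p))
    (g : GQ) : ((LD none).sub (locSub (decomp none) H g)).IsB2 (Additive ℚbˣ)
      (locAt T H none g (fun y => muIdele hN hle hμ (c y))) :=
  isB2_none_of_odd (hp.out.odd_of_ne_two hp2) _
    (locAt_mem_Z2 (muCochain_mem hN hle hμ htriv hc))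
    ((nsmul_locAt_mu hN hle hμ htriv (c := c) none g).symm ▸ LevelGroup.isB2_zero)

theorem locAt_mu_outside {q : Nat.Primes} (hq : q ∉ T) {c : H × H → ZMod p}
    (hc : c ∈ ((LT T).sub H).Z2 (ZMod p)) (g : GQ) :
    ((LD (some q)).sub (locSub (decomp (some q)) H g)).IsB2 (Additive ℚbˣ)
      (locAt T H (some q) g (fun y => muIdele hN hle hμ (c y))) := by
  obtain ⟨⟨_, ⟨N', hN', rfl⟩, hcN⟩, -⟩ := id hc
  have hz := locAt_mem_Z2 (v := some q) (g := g) (muCochain_mem hN hle hμ htriv hc)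
  haveI : N.Normal := normal_of_level hN
  set D' := locSub (decomp (some q)) H g
  set z := locAt T H (some q) g (fun y => muIdele hN hle hμ (c y)) with hzdef
  have hN₀ : (LT T).IsLevel ((show Subgroup GQ from N') ⊓ N) := (LT T).inf _ _ hN' hN
  let ND : Subgroup (LD (some q)).G :=
    ((show Subgroup GQ from N') ⊓ N).subgroupOf (decomp (some q))
  have hI : ∀ s : (LD (some q)).G, s.1 ∈ (placeAt q).inertiaSubgroupIn ℚ → s ∈ ND := fun s hs => by
    obtain ⟨F, hF, hFN, -⟩ := hN₀
    exact Subgroup.mem_subgroupOf.mpr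
      ((SetLike.ext_iff.mp hFN _).mpr (hF.2 q hq (placeAt q) (placeAt_liesOverPrime q) hs))
  have hND : ND ≤ D' := fun s hs => by
    show g⁻¹ * ((show decomp (some q) from s) : GQ) * g⁻¹⁻¹ ∈ H
    exact hle ((inferInstance : N.Normal).conj_mem _ hs.2 g⁻¹)
  obtain ⟨b, -, hbN, hbd⟩ := units_h2 q D' ND (exists_level_decomp hN₀ (some q)) hI hND
    (fun y => (z y).toMul) (fun a a' j => congrArg Additive.toMul (hz.2 a a' j))
    (fun a a' s t hs ht => by
      show (evalAt (some q) g (muIdele hN hle hμ (c (cjT H (a * s), cjT H (a' * t))))).toMul = _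
      rw [show cjT H (a * s) = cjT H a * cjT H s from cj_mul _ _,
        show cjT H (a' * t) = cjT H a' * cjT H t from cj_mul _ _]
      exact congrArg (fun w => (evalAt (some q) g (muIdele hN hle hμ w)).toMul)
        (hcN (cjT H a) (cjT H a') (cjT H s) (cjT_mem hN₀ hs).1 (cjT H t) (cjT_mem hN₀ ht).1))
    (fun y => ((sUnitIdele hN hle).comp (muUnitHom hμ) (c _)).2.2 q hq g)
    (fun y s hs => by
      show ((show decomp (some q) from s) : GQ) • (g • (toMu p (c _)).toMul) =
        g • (toMu p (c _)).toMul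
      have hs' : g⁻¹ * ((show decomp (some q) from s) : GQ) * g⁻¹⁻¹ ∈ H := hND hs
      rw [← mul_smul, show ((show decomp (some q) from s) : GQ) * g =
        g * (g⁻¹ * ((show decomp (some q) from s) : GQ) * g⁻¹⁻¹) by group, mul_smul,
        hμ _ hs' _ (congrArg Additive.toMul
          (show p • toMu p (c _) = 0 by rw [← map_nsmul, nsmul_zmod, map_zero]))])
  exact ⟨fun a => Additive.ofMul (b a), ⟨_, ⟨ND, exists_level_decomp hN₀ (some q), rfl⟩,
    fun a s hs => congrArg Additive.ofMul (hbN a s hs)⟩,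
    funext fun y => (congrArg Additive.ofMul (hbd y.1 y.2)).symm⟩

theorem locAt_mu_at (hp2 : p ≠ 2) (D : ClassData p) (hT : pPrime p ∈ T) (hH : (LT T).IsOpen H)
    (c : ((LT T).sub H).Z2 (ZMod p))
    (hc : ∀ φ : ZMod p →+ ClassT T, φ ∈ ((LT T).sub H).HomC (ZMod p) (ClassT T) →
      ∀ hz : φ ∘ c.1 ∈ ((LT T).sub H).Z2 (ClassT T),
        ((D.glob T hT).sub H hH).inv ⟨_, hz⟩ = 0)
    {q : Nat.Primes} (hq : q ∈ T) (g : GQ) :
    ((LD (some q)).sub (locSub (decomp (some q)) H g)).IsB2 (Additive ℚbˣ)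
      (locAt T H (some q) g (fun y => muIdele hN hle hμ (c.1 y))) := by
  classical
  set v : Place := some q with hv
  set D' : Subgroup (LD v).G := locSub (decomp v) H g
  have hD' : (LD v).IsOpen D' := placeGroup_isOpen hN hle v g
  haveI := hD'.finite_quotient
  haveI : Subgroup.FiniteIndex (G := (LD v).G) D' := Subgroup.finiteIndex_of_finite_quotient
  have hI0 : Subgroup.index (G := (LD v).G) D' ≠ 0 := Subgroup.FiniteIndex.index_ne_zero
  obtain ⟨k, u, hu, hI⟩ := Nat.exists_eq_pow_mul_and_not_dvd hI0 p hp.out.ne_one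
  have hu' : u.Coprime p := (hp.out.coprime_iff_not_dvd.mpr hu).symm
  obtain ⟨y, hy1, hy2', hyW⟩ := exists_local_class hp2 q k
  obtain ⟨W, hWs, hWy⟩ := hyW T hT
  let ι := (D.loc v).inv
  have hy2 : p ^ k • ι y ≠ 0 := fun h => hy2' (by
    rw [← map_nsmul] at h ⊢
    refine locInv_d₁ _ _ _ ((D.loc v).inv_inj _ ?_ h)
    rw [AddSubgroup.coe_nsmul, smul_smul, ← pow_succ']
    exact hy1)
  have hy3 : p ^ (k + 1) • ι y = 0 := by
    rw [← map_nsmul]
    exact (D.loc v).inv_d₁ _ hy1
  have hIy : Subgroup.index (G := (LD v).G) D' • ι y ≠ 0 := fun h => by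
    rw [hI, mul_comm, mul_smul] at h
    exact hy2 (eq_zero_of_nsmul_coprime hu' h (by rw [smul_smul, ← pow_succ']; exact hy3))
  have hpIy : p • (Subgroup.index (G := (LD v).G) D' • ι y) = 0 := by
    rw [hI, smul_smul, show p * (p ^ k * u) = u * p ^ (k + 1) by ring, mul_smul, hy3, smul_zero]
  let ζ : ((LD v).sub D').Z2 (Additive ℚbˣ) :=
    ⟨fun x : D' × D' => y.1 (x.1.1, x.2.1), res_mem_Z2 (H := D') y.2⟩
  have hζp : ((LD v).sub D').IsB2 (Additive ℚbˣ) (p • ζ.1) := by
    refine local_h2_killed p v ⊤ ⟨_, (LD v).exists_level.choose_spec, le_top⟩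
      ⟨_, res_mem_Z2 (AddSubgroup.nsmul_mem _ y.2 p)⟩ k ?_ D' le_top hD' ?_
    · have h1 := IsB2.res (⊤ : Subgroup (LD v).G) hy1
      rw [pow_succ, mul_smul] at h1
      exact h1
    · show p ^ k ∣ Subgroup.relIndex (G := (LD v).G) D' ⊤
      rw [Subgroup.relIndex_top_right, hI]
      exact dvd_mul_right _ _
  have hζne : ¬ ((LD v).sub D').IsB2 (Additive ℚbˣ) ζ.1 := fun h => hIy (by
    rw [← map_nsmul]
    refine ((D.loc v).inv_congr ⟨_, cor₂_mem_Z2 hD' (smooth_LD v) ζ.2⟩ _
      (cor₂_res hD' y.2)).symm.trans ?_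
    exact (D.loc v).inv_d₁ _ (isB2_cor₂ hD' h))
  have hμc := muCochain_mem hN hle hμ htriv c.2
  obtain ⟨m, hm⟩ := local_h2_line p hp2 v D' hD' ζ
    ⟨_, locAt_mem_Z2 (v := v) (g := g) hμc⟩ hζp
    ((nsmul_locAt_mu hN hle hμ htriv (c := c.1) v g).symm ▸ LevelGroup.isB2_zero) hζne
  -- the masked cocycles
  let P : (LT T).G ⧸ (show Subgroup (LT T).G from H) → Additive (idele T) →+ Additive (idele T) :=
    fun s => orbHom hH v g (show GQ from s.out)
  let one : (LT T).G ⧸ (show Subgroup (LT T).G from H) := ((1 : (LT T).G) : _)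
  have hone : ∀ h : ((LT T).sub H).G, (h : H).1 • one = one := fun h =>
    QuotientGroup.eq.mpr (by
      show ((show (LT T).G from (h : H).1) * 1)⁻¹ * 1 ∈ (show Subgroup (LT T).G from H)
      rw [mul_one, mul_one]
      exact inv_mem (h : H).2)
  have hPeq : ∀ (h : ((LT T).sub H).G) (f : Additive (idele T)), P one (h • f) = h • P one f :=
    fun h f => by
      refine Eq.trans ?_ (orbHom_smul hH v g (show (LT T).G from (h : H).1) one f).symm
      show P one (h • f) = P ((show (LT T).G from (h : H).1) • one) (h • f)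
      rw [hone h]
  have ht : ∀ x : GQ, placeOf v H (x * (show GQ from one.out)) = placeOf v H x := fun x => by
    obtain ⟨k', hk'⟩ := QuotientGroup.mk_out_eq_mul (show Subgroup (LT T).G from H) (1 : (LT T).G)
    have hmem : (show GQ from one.out) ∈ H := by
      rw [show (show GQ from one.out) = (show GQ from ((1 : (LT T).G) * (k' : (LT T).G))) from hk']
      rw [one_mul]
      exact k'.2
    have h2 := placeOf_mul (v := v) (H := H) (d := 1) (one_mem _) hmem x
    rwa [one_mul] at h2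
  let Zg : H × H → Additive (idele T) := fun x => P one (muIdele hN hle hμ (c.1 x))
  let Wg : H × H → Additive (idele T) := fun x => P one (W.1 (x.1.1, x.2.1))
  have hZg : Zg ∈ ((LT T).sub H).Z2 (Additive (idele T)) :=
    map_mem_Z2 (L := (LT T).sub H) (P one) hPeq hμc
  have hWg : Wg ∈ ((LT T).sub H).Z2 (Additive (idele T)) :=
    map_mem_Z2 (L := (LT T).sub H) (P one) hPeq (res_mem_Z2 (H := (show Subgroup (LT T).G from H)) W.2)
  have hΔ : Zg - m • Wg ∈ ((LT T).sub H).Z2 (Additive (idele T)) :=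
    sub_mem hZg (AddSubgroup.nsmul_mem _ hWg m)
  have hat : ((LD v).sub D').IsB2 (Additive ℚbˣ) (locAt T H v g (Zg - m • Wg)) := by
    have hconj := IsB2.res (L := LD v) D' (locHom_isB2 v (isB2_conj W.2 (lt T g)))
    rw [map_sub, map_nsmul]
    have e1 : locAt T H v g Zg = locAt T H v g (fun x => muIdele hN hle hμ (c.1 x)) :=
      funext fun x => evalAt_orbHom_of_eq hH (ht g) _
    let ζf : locSub (decomp v) H g × locSub (decomp v) H g → Additive ℚbˣ := fun x =>
      y.1 (x.1.1, x.2.1)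
    have e2 : locAt T H v g Wg - ζf = fun x : locSub (decomp v) H g × locSub (decomp v) H g => locHom v
        ((fun z => lt T g • W.1 ((lt T g)⁻¹ * z.1 * lt T g, (lt T g)⁻¹ * z.2 * lt T g)) - W.1)
        (x.1.1, x.2.1) := funext fun x => by
      show evalAt v g (Wg (cjT H x.1, cjT H x.2)) - y.1 (x.1.1, x.2.1) =
        evalAt v 1 (lt T g • W.1 ((lt T g)⁻¹ * lt T (x.1.1 : decomp v).1 * lt T g,
          (lt T g)⁻¹ * lt T (x.2.1 : decomp v).1 * lt T g) - W.1 (lt T (x.1.1 : decomp v).1, lt T (x.2.1 : decomp v).1))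
      rw [map_sub, evalAt_lt, one_mul, ← hWy]
      refine congrArg₂ (· - ·) ?_ rfl
      refine (evalAt_orbHom_of_eq hH (ht g) _).trans ?_
      refine congrArg (evalAt v g) (congrArg W.1 (Prod.ext ?_ ?_)) <;> exact coe_cj _
    have h3 : ((LD v).sub D').IsB2 (Additive ℚbˣ) (locAt T H v g Wg - ζf) := by
      rw [e2]; exact hconj
    have h4 := LevelGroup.IsB2.sub (L := (LD v).sub D') hm (h3.nsmul m)
    rw [e1]
    convert h4 using 1
    exact sub_nsmul_eq m _ _ _
  have hΔB : ((LT T).sub H).IsB2 (Additive (idele T)) (Zg - m • Wg) := by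
    refine idele_h2_loc_eq (T := T) H hH ⟨_, hΔ⟩ fun v' g' => ?_
    have hloc : ((LD v').sub (locSub (decomp v') H g')).IsB2 (Additive ℚbˣ)
        (locAt T H v' g' (Zg - m • Wg)) := by
      by_cases hv' : v' = v ∧ placeOf v H g' = placeOf v H g
      · obtain ⟨rfl, hpl⟩ := hv'
        obtain ⟨a, ha, k', hk', e⟩ := (DoubleCoset.eq (decomp v) H _ _).mp hpl.symm
        exact locAt_isB2_transport hΔ hat ⟨a, ha⟩ ⟨k', hk'⟩ g' e
      · have h0 : ∀ f : Additive (idele T), evalAt v' g' (P one f) = 0 := fun f =>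
          evalAt_orbHom_of_ne hH (fun h => hv' ⟨h.1, (ht g').symm.trans h.2⟩) f
        have : locAt T H v' g' (Zg - m • Wg) = 0 := funext fun x => by
          show evalAt v' g' (P one _ - m • P one _) = 0
          rw [map_sub, map_nsmul, h0, h0, smul_zero, sub_zero]
        rw [this]
        exact LevelGroup.isB2_zero
    obtain ⟨b, ⟨_, ⟨M, hM, rfl⟩, hbM⟩, hbd⟩ := hloc
    exact ⟨b, ⟨M, hM, fun d s hs => hbM d s hs⟩, fun d e => (congrFun hbd (d, e)).symm⟩
  -- the invariants
  haveI := hH.finite_quotient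
  haveI := Fintype.ofFinite ((LT T).G ⧸ (show Subgroup (LT T).G from H))
  have hsm := smooth_idele T
  let J := gInv D.toGlobalInv T hT
  let cZ : (LT T).Z2 (Additive (idele T)) := ⟨_, cor₂_mem_Z2 hH hsm hZg⟩
  let cW : (LT T).Z2 (Additive (idele T)) := ⟨_, cor₂_mem_Z2 hH hsm hWg⟩
  have hJB : ∀ z : (LT T).Z2 (Additive (idele T)), (LT T).IsB2 _ z.1 → J z = 0 := fun z hz =>
    (D.glob T hT).inv_d₁ _ (classHom_isB2 hz)
  have hJ0 : J cZ = 0 := by
    let φ : ZMod p →+ ClassT T := (classHom T).comp ((P one).comp (muIdele hN hle hμ))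
    have hφ : φ ∈ ((LT T).sub H).HomC (ZMod p) (ClassT T) := fun h a => by
      rw [htriv]
      show _ = (show (LT T).G from (h : H).1) • classHom T _
      rw [← classHom_smul]
      refine congrArg (classHom T) ?_
      refine Eq.trans ?_ (hPeq h _)
      exact congrArg (P one) ((((sUnitIdele hN hle).comp (muUnitHom hμ)) a).2.1 h.1 h.2).symm
    have hz : φ ∘ c.1 ∈ ((LT T).sub H).Z2 (ClassT T) :=
      map_mem_Z2 (L := (LT T).sub H) (classHom T)
        (fun h a => classHom_smul (T := T) (h : H).1 a) hZg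
    refine Eq.trans ?_ (hc φ hφ hz)
    refine congrArg (D.glob T hT).inv (Subtype.ext (funext fun x => ?_))
    show classHom T ((LT T).cor₂ _ _ Zg x) = (LT T).cor₂ _ _ (fun z => classHom T (Zg z)) x
    rw [cor₂_apply, cor₂_apply, map_sum]
    exact Finset.sum_congr rfl fun s _ => classHom_smul _ _
  have hJm : J cZ = m • J cW := by
    rw [← map_nsmul, ← sub_eq_zero, ← map_sub]
    refine hJB _ ?_
    show (LT T).IsB2 _ ((LT T).cor₂ _ _ Zg - m • (LT T).cor₂ _ _ Wg)
    rw [← cor₂_nsmul hH, ← cor₂_sub hH]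
    exact isB2_cor₂ hH hΔB
  let w' : (LT T).G × (LT T).G → Additive (idele T) := fun x => ∑ᶠ s, P s (W.1 x)
  have hfam := cor₂_family hH W.2 P fun σ s f => orbHom_smul hH v g σ s f
  have hw' : w' ∈ (LT T).Z2 (Additive (idele T)) := by
    let Q : Additive (idele T) →+ Additive (idele T) := ∑ s, P s
    have hQ : ∀ (σ : (LT T).G) f, Q (σ • f) = σ • Q f := fun σ f => by
      show (∑ s, P s) (σ • f) = σ • (∑ s, P s) f
      rw [AddMonoidHom.finsetSum_apply, AddMonoidHom.finsetSum_apply, Finset.smul_sum,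
        Finset.sum_congr rfl fun s _ => orbHom_smul hH v g σ s f]
      exact (Equiv.sum_comp (MulAction.toPerm σ) fun s => P s (σ • f)).symm
    have e : w' = fun x => Q (W.1 x) := funext fun x => by
      show ∑ᶠ s, P s (W.1 x) = (∑ s, P s) (W.1 x)
      rw [finsum_eq_sum_of_fintype, AddMonoidHom.finsetSum_apply]
    rw [e]
    exact map_mem_Z2 Q hQ W.2
  have hJw : J cW = J ⟨w', hw'⟩ := by
    rw [← sub_eq_zero, ← map_sub]
    exact hJB _ hfam
  have hloc : ∀ (v' : Place) x, evalAt v' 1 (w' x) =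
      if v' = v then D'.index • evalAt v 1 (W.1 x) else 0 := fun v' x => by
    show evalAt v' 1 (∑ᶠ s, P s (W.1 x)) = _
    rw [finsum_eq_sum_of_fintype, map_sum]
    split_ifs with hv'
    · subst hv'
      have hterm : ∀ s, evalAt v 1 (P s (W.1 x)) =
          if placeOf v H (show GQ from s.out) = placeOf v H g then evalAt v 1 (W.1 x) else 0 :=
        fun s => by
          split_ifs with hs
          · exact evalAt_orbHom_of_eq hH (by rw [one_mul]; exact hs) _
          · exact evalAt_orbHom_of_ne hH (fun h => hs (by rw [one_mul] at h; exact h.2)) _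
      rw [Finset.sum_congr rfl fun s _ => hterm s, Finset.sum_ite, Finset.sum_const_zero, add_zero,
        Finset.sum_const]
      congr 1
      exact (Fintype.card_subtype _).symm.trans
        (Nat.card_eq_fintype_card.symm.trans (card_coset_place v H g))
    · exact Finset.sum_eq_zero fun s _ => evalAt_orbHom_of_ne hH (fun h => hv' h.1) _
  have hJy : J ⟨w', hw'⟩ = Subgroup.index (G := (LD v).G) D' • ι y := by
    have hu1 : ∀ x, ∀ q' ∉ T, ∀ x', ((w' x).toMul).1 (some q') x' ∈ (placeAt q').unitGroup := by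
      intro x q' hq' x'
      have h0 : evalAt (some q') x' (w' x) = 0 := by
        show evalAt (some q') x' (∑ᶠ s, P s (W.1 x)) = _
        rw [finsum_eq_sum_of_fintype, map_sum]
        exact Finset.sum_eq_zero fun s _ => evalAt_orbHom_of_ne hH
          (fun h => hq' (by rw [show q' = q from Option.some.inj h.1]; exact hq)) _
      rw [show ((w' x).toMul).1 (some q') x' = 1 from congrArg Additive.toMul h0]
      exact one_mem _
    refine (D.decomposition T hT (fun x => (w' x).toMul) (clsZ2 T ⟨w', hw'⟩).2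
      (fun v' => locHom_mem_Z2 v' hw') hw' hu1).trans ?_
    rw [Finset.sum_eq_single_of_mem v (mem_placesOf_some.mpr hq) fun v' _ hne => ?_]
    · rw [← map_nsmul]
      refine congrArg (D.loc v).inv (Subtype.ext (funext fun x => ?_))
      rw [AddSubgroup.coe_nsmul, Pi.smul_apply]
      show evalAt v 1 (w' (ofD x.1, ofD x.2)) = _ • y.1 x
      rw [hloc, if_pos rfl, ← hWy]
      rfl
    · refine (D.loc v').inv_d₁ _ ?_
      have : (fun x : (LD v').G × (LD v').G => evalAt v' 1 (w' (ofD x.1, ofD x.2))) = 0 :=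
        funext fun x => by rw [hloc, if_neg hne]; rfl
      exact (show (LD v').IsB2 (Additive ℚbˣ) (fun x => evalAt v' 1 (w' (ofD x.1, ofD x.2))) from
        this ▸ LevelGroup.isB2_zero)
  rw [hJm, hJw, hJy] at hJ0
  have hpm : p ∣ m := by
    by_contra h
    exact hIy (eq_zero_of_nsmul_coprime ((hp.out.coprime_iff_not_dvd.mpr h).symm) hJ0 hpIy)
  obtain ⟨m', rfl⟩ := hpm
  have h5 := LevelGroup.IsB2.add (L := (LD v).sub D') hm (hζp.nsmul m')
  rwa [smul_smul, mul_comm m' p, sub_add_cancel] at h5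

/-- The roots of unity times an orthogonal class form a coboundary of ideles. -/
theorem muCochain_isB2 (hp2 : p ≠ 2) (D : ClassData p) (hT : pPrime p ∈ T) (hH : (LT T).IsOpen H)
    (c : ((LT T).sub H).Z2 (ZMod p))
    (hc : ∀ φ : ZMod p →+ ClassT T, φ ∈ ((LT T).sub H).HomC (ZMod p) (ClassT T) →
      ∀ hz : φ ∘ c.1 ∈ ((LT T).sub H).Z2 (ClassT T),
        ((D.glob T hT).sub H hH).inv ⟨_, hz⟩ = 0) :
    ((LT T).sub H).IsB2 (Additive (idele T)) (fun y => muIdele hN hle hμ (c.1 y)) := by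
  refine idele_h2_loc_eq (T := T) H hH ⟨_, muCochain_mem hN hle hμ htriv c.2⟩ fun v g => ?_
  have hloc : ((LD v).sub (locSub (decomp v) H g)).IsB2 (Additive ℚbˣ)
      (locAt T H v g (fun y => muIdele hN hle hμ (c.1 y))) := by
    rcases v with _ | q
    · exact locAt_mu_none hN hle hμ htriv hp2 c.2 g
    · by_cases hq : q ∈ T
      · exact locAt_mu_at hN hle hμ htriv hp2 D hT hH c hc hq g
      · exact locAt_mu_outside hN hle hμ htriv hq c.2 g
  obtain ⟨b, ⟨_, ⟨M, hM, rfl⟩, hbM⟩, hbd⟩ := hloc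
  exact ⟨b, ⟨M, hM, fun d s hs => hbM d s hs⟩, fun d e => (congrFun hbd (d, e)).symm⟩

end Fermat.Agent.GD
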