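import Fermat.Agent.GD.Bases.Euler.Places
import Fermat.Agent.GD.Bases.Data

/-!
# Cocycles supported over one place of a field
-/

set_option autoImplicit false
set_option linter.unusedSectionVars false
set_option linter.style.haveILetI false

noncomputable section

namespace Fermat.Agent.GD

open Fermat.Agent.Galois (GQ)

local notation "ℚb" => AlgebraicClosure ℚ

universe u w

section Family

variable {L : LevelGroup.{u}} {C : Type w} [AddCommGroup C] [DistribMulAction L.G C]

/-- Corestriction of a cocycle cut by an equivariant family of endomorphisms. -/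
theorem cor₂_family {H : Subgroup L.G} (hH : L.IsOpen H) {z : L.G × L.G → C} (hz : z ∈ L.Z2 C)
    (P : L.G ⧸ H → C →+ C) (hP : ∀ (g : L.G) s a, g • P s a = P (g • s) (g • a)) :
    L.IsB2 C (L.cor₂ C H (fun y : H × H => P ((1 : L.G) : L.G ⧸ H) (z (y.1.1, y.2.1))) -
      fun y => ∑ᶠ s : L.G ⧸ H, P s (z y)) := by
  have := hH.finite_quotient
  have := Fintype.ofFinite (L.G ⧸ H)
  obtain ⟨⟨N, hN, hzN⟩, hc⟩ := hz
  let b : L.G → C := fun g =>
    ∑ s : L.G ⧸ H, P (g • s) (z ((g • s).out, (L.eta H g s : L.G)) - z (g, s.out))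
  refine ⟨b, ?_, funext fun ⟨g, g'⟩ => ?_⟩
  · obtain ⟨N', hN', h1, h2⟩ := exists_level_le hH hN
    refine ⟨N', hN', fun g n hn => Finset.sum_congr rfl fun s _ => ?_⟩
    obtain ⟨he, n', hn', heta⟩ := L.eta_mul_level hN' h2 g hn s
    rw [he, heta]
    have e1 := hzN (g • s).out (L.eta H g s : L.G) 1 N.one_mem n' (h1 hn')
    have e2 := hzN g s.out n (h1 hn) 1 N.one_mem
    rw [mul_one] at e1 e2
    exact congrArg (P (g • s)) (congrArg₂ (· - ·) e1 e2)
  · rw [L.d₁_apply, Pi.sub_apply, cor₂_apply, finsum_eq_sum_of_fintype]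
    show g • b g' - b (g * g') + b g = _
    have key : ∀ s : L.G ⧸ H,
        ((g * g') • s).out • P ((1 : L.G) : L.G ⧸ H)
            (z ((L.eta H g (g' • s) : L.G), (L.eta H g' s : L.G))) -
            P ((g * g') • s) (z (g, g')) =
          g • P (g' • s) (z ((g' • s).out, (L.eta H g' s : L.G)) - z (g', s.out)) -
            P ((g * g') • s)
              (z (((g * g') • s).out, (L.eta H (g * g') s : L.G)) - z (g * g', s.out)) +
            P (g • g' • s)
              (z ((g • g' • s).out, (L.eta H g (g' • s) : L.G)) - z (g, (g' • s).out)) := fun s => by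
      have e1 : ((g * g') • s).out • ((1 : L.G) : L.G ⧸ H) = (g * g') • s :=
        (congrArg QuotientGroup.mk (mul_one _)).trans (QuotientGroup.out_eq' _)
      rw [hP, hP, e1, ← mul_smul g g' s, ← map_sub, ← map_sub, ← map_add]
      congr 1
      have c1 := hc ((g * g') • s).out (L.eta H g (g' • s) : L.G) (L.eta H g' s : L.G)
      have c2 := hc g (g' • s).out (L.eta H g' s : L.G)
      have c3 := hc g g' s.out
      rw [← Subgroup.coe_mul, ← L.eta_mul, mul_smul g g' s, L.out_mul_eta] at c1
      rw [L.out_mul_eta] at c2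
      rw [mul_smul g g' s, smul_sub]
      linear_combination (norm := abel) c1 - c2 + c3
    rw [show (∑ s : L.G ⧸ H, P s (z (g, g'))) = ∑ s : L.G ⧸ H, P ((g * g') • s) (z (g, g')) from
        (Equiv.sum_comp (MulAction.toPerm (g * g')) fun s : L.G ⧸ H => P s (z (g, g'))).symm,
      ← Finset.sum_sub_distrib, Finset.sum_congr rfl fun s _ => key s, Finset.sum_add_distrib,
      Finset.sum_sub_distrib, ← Finset.smul_sum]
    exact congrArg₂ (· + ·) rfl (Equiv.sum_comp (MulAction.toPerm g')
      (fun s : L.G ⧸ H =>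
        P (g • s) (z ((g • s).out, (L.eta H g s : L.G)) - z (g, s.out)))).symm

end Family

variable {T : Finset Nat.Primes}

/-- The double coset of an element. -/
abbrev placeOf (v : Place) (H : Subgroup GQ) (g : GQ) : PlacesAbove v H :=
  DoubleCoset.mk (decomp v) H g

theorem placeOf_mul {v : Place} {H : Subgroup GQ} {d k : GQ} (hd : d ∈ decomp v) (hk : k ∈ H)
    (g : GQ) : placeOf v H (d * g * k) = placeOf v H g :=
  (DoubleCoset.eq (decomp v) H _ _).mpr
    ⟨d⁻¹, inv_mem hd, k⁻¹, inv_mem hk, by group⟩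

/-- An idele kept over one place of the field of `H`, translated by a coset. -/
def orbFn (H : Subgroup GQ) (v : Place) (g t : GQ) (f : IdeleFn) : IdeleFn := fun v' x =>
  open scoped Classical in
  if v' = v ∧ placeOf v H (x * t) = placeOf v H g then f v' x else 1

theorem orbFn_mem {H : Subgroup (LT T).G} (hH : (LT T).IsOpen H) (v : Place) (g t : GQ)
    {f : IdeleFn} (hf : f ∈ idele T) : orbFn H v g t f ∈ idele T := by
  obtain ⟨h1, ⟨N₁, hN₁, h2⟩, h3⟩ := hf
  obtain ⟨N₂, hN₂, hle⟩ := hH
  refine ⟨fun v' d hd x => ?_, ⟨N₁ ⊓ N₂, (LT T).inf _ _ hN₁ hN₂, fun v' x s hs => ?_⟩,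
    h3.subset fun q hq => ?_⟩
  · by_cases hv : v' = v
    · subst hv
      have e : placeOf v' H (d * x * t) = placeOf v' H (x * t) := by
        rw [mul_assoc d x t]
        exact (congrArg (placeOf v' H) (mul_one (d * (x * t))).symm).trans
          (placeOf_mul (H := H) hd (Subgroup.one_mem _) (x * t))
      classical
      by_cases c : placeOf v' H (x * t) = placeOf v' H g
      · refine (if_pos ⟨rfl, e.trans c⟩).trans ?_
        exact (h1 v' d hd x).trans (congrArg (d • ·)
          (if_pos (⟨rfl, c⟩ : v' = v' ∧ placeOf v' H (x * t) = placeOf v' H g)).symm)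
      · refine (if_neg fun h => c (e.symm.trans h.2)).trans ?_
        exact (smul_one d).symm.trans (congrArg (d • ·)
          (if_neg (fun h => c h.2 : ¬ (v' = v' ∧ placeOf v' H (x * t) = placeOf v' H g))).symm)
    · simp only [orbFn, hv, false_and, if_false]
      exact (smul_one d).symm
  · have hn := ((LT T).normal N₂ hN₂).conj_mem s hs.2 (show (LT T).G from t)⁻¹
    have e : placeOf v H (x * s * t) = placeOf v H (x * t) := by
      have h4 := placeOf_mul (v := v) (H := H) (d := 1) (one_mem _) (hle hn) (x * t)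
      refine Eq.trans ?_ h4
      refine congrArg (placeOf v H) ?_
      show x * s * t = 1 * (x * t) * (t⁻¹ * s * t⁻¹⁻¹)
      group
    classical
    by_cases c : v' = v ∧ placeOf v H (x * t) = placeOf v H g
    · exact (if_pos ⟨c.1, e.trans c.2⟩).trans ((h2 v' x s hs.1).trans (if_pos c).symm)
    · exact (if_neg fun h => c ⟨h.1, e.symm.trans h.2⟩).trans (if_neg c).symm
  · obtain ⟨x, hx⟩ := hq
    refine ⟨x, fun h => hx ?_⟩
    simp only [orbFn]
    split_ifs
    · exact h
    · exact one_mem _

/-- Cutting over a place, as a homomorphism. -/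
def orbHom {H : Subgroup (LT T).G} (hH : (LT T).IsOpen H) (v : Place) (g t : GQ) :
    Additive (idele T) →+ Additive (idele T) :=
  AddMonoidHom.mk' (fun f => Additive.ofMul ⟨_, orbFn_mem hH v g t f.toMul.2⟩) fun f f' =>
    congrArg Additive.ofMul (Subtype.ext (funext fun v' => funext fun x => by
      show orbFn H v g t _ v' x = orbFn H v g t _ v' x * orbFn H v g t _ v' x
      simp only [orbFn]
      split_ifs
      · rfl
      · rw [mul_one]))

theorem evalAt_orbHom_of_eq {H : Subgroup (LT T).G} (hH : (LT T).IsOpen H) {v : Place}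
    {g t x : GQ} (h : placeOf v H (x * t) = placeOf v H g) (f : Additive (idele T)) :
    evalAt v x (orbHom hH v g t f) = evalAt v x f := by
  classical
  exact congrArg Additive.ofMul (if_pos ⟨rfl, h⟩)

theorem evalAt_orbHom_of_ne {H : Subgroup (LT T).G} (hH : (LT T).IsOpen H) {v v' : Place}
    {g t x : GQ} (h : ¬ (v' = v ∧ placeOf v H (x * t) = placeOf v H g)) (f : Additive (idele T)) :
    evalAt v' x (orbHom hH v g t f) = 0 := by
  classical
  exact congrArg Additive.ofMul (if_neg h)

theorem orbHom_smul {H : Subgroup (LT T).G} (hH : (LT T).IsOpen H) (v : Place) (g : GQ)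
    (σ : (LT T).G) (s : (LT T).G ⧸ H) (f : Additive (idele T)) :
    σ • orbHom hH v g (show GQ from s.out) f =
      orbHom hH v g (show GQ from (σ • s).out) (σ • f) := by
  classical
  refine idele_ext fun v' x => ?_
  rw [evalAt_smul]
  have e : placeOf v H (x * (show GQ from (σ • s).out)) =
      placeOf v H (x * (show GQ from σ) * (show GQ from s.out)) := by
    have h1 := (LT T).out_mul_eta H σ s
    have h2 := placeOf_mul (v := v) (H := H) (d := 1) (one_mem _) ((LT T).eta H σ s).2
      (x * (show GQ from (σ • s).out))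
    rw [one_mul, mul_assoc] at h2
    refine h2.symm.trans (congrArg (placeOf v H) ?_)
    rw [mul_assoc]
    exact congrArg (x * ·) h1
  by_cases hc : v' = v ∧ placeOf v H (x * (show GQ from σ) * (show GQ from s.out)) = placeOf v H g
  · obtain ⟨rfl, hc2⟩ := hc
    rw [evalAt_orbHom_of_eq hH hc2, evalAt_orbHom_of_eq hH (e.trans hc2), evalAt_smul]
  · rw [evalAt_orbHom_of_ne hH hc, evalAt_orbHom_of_ne hH fun h => hc ⟨h.1, e.symm.trans h.2⟩]

/-- The cosets in one double coset are counted by the index of the local group. -/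
theorem card_coset_place (v : Place) (H : Subgroup GQ) (g : GQ) :
    Nat.card {s : GQ ⧸ H // placeOf v H s.out = placeOf v H g} =
      (locSub (decomp v) H g).index := by
  classical
  have hmem : ∀ d : decomp v,
      placeOf v H ((((d : GQ) * g : GQ) : GQ ⧸ H).out) = placeOf v H g := fun d => by
    obtain ⟨k, hk⟩ := QuotientGroup.mk_out_eq_mul H ((d : GQ) * g)
    rw [hk, placeOf_mul d.2 k.2]
  let f : decomp v ⧸ locSub (decomp v) H g → {s : GQ ⧸ H // placeOf v H s.out = placeOf v H g} :=
    fun c => Quotient.liftOn' c (fun d => ⟨((d : GQ) * g : GQ), hmem d⟩) fun a b hab => by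
      refine Subtype.ext (QuotientGroup.eq.mpr ?_)
      have h1 : g⁻¹ * ((a⁻¹ * b : decomp v) : GQ) * g⁻¹⁻¹ ∈ H := QuotientGroup.leftRel_apply.mp hab
      simpa [mul_assoc] using h1
  rw [Subgroup.index_eq_card]
  refine (Nat.card_congr (Equiv.ofBijective f ⟨fun a b h => ?_, fun s => ?_⟩)).symm
  · induction a using Quotient.inductionOn' with | h a => ?_
    induction b using Quotient.inductionOn' with | h b => ?_
    have h1 : ((a : GQ) * g)⁻¹ * ((b : GQ) * g) ∈ H := QuotientGroup.eq.mp (congrArg Subtype.val h)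
    refine QuotientGroup.eq.mpr ?_
    show g⁻¹ * ((a⁻¹ * b : decomp v) : GQ) * g⁻¹⁻¹ ∈ H
    simpa [mul_assoc] using h1
  · obtain ⟨s, hs⟩ := s
    obtain ⟨a, ha, k, hk, e⟩ := (DoubleCoset.eq (decomp v) H _ _).mp hs.symm
    refine ⟨((⟨a, ha⟩ : decomp v) : decomp v ⧸ _), Subtype.ext ?_⟩
    show ((a * g : GQ) : GQ ⧸ H) = s
    conv_rhs => rw [← QuotientGroup.out_eq' s, e]
    exact QuotientGroup.eq.mpr (by simpa [mul_assoc] using hk)

end Fermat.Agent.GD
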